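import Fermat.Agent.S20.Division

/-!
# S20 / C4 hedge (helper765): conjugate API and level-one helpers

Private-namespace copies of the small facts about `conj`, `IsMF` that the package C4
(`infty_structure`) needs.  Everything is in `namespace Fermat.Agent.S20.H765`.
-/

set_option autoImplicit false

open UpperHalfPlane ModularForm CongruenceSubgroup Matrix.SpecialLinearGroup EisensteinSeries
open Filter Topology Asymptotics
open scoped MatrixGroups ModularForm Manifold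

namespace Fermat.Agent.S20.H765

variable {Γ : Subgroup SL(2, ℤ)} {k : ℤ} {f : ℍ → ℂ}

/-- The conjugate at the coset of `g` is `f ∣[k] g⁻¹`. -/
lemma conj_mk (hf : ∀ γ ∈ Γ, f ∣[k] γ = f) (g : SL(2, ℤ)) :
    conj Γ k f (g : SL(2, ℤ) ⧸ Γ) = f ∣[k] g⁻¹ := by
  unfold conj
  obtain ⟨γ, hγ⟩ := QuotientGroup.mk_out_eq_mul Γ g
  rw [hγ, mul_inv_rev, SlashAction.slash_mul, hf _ (Γ.inv_mem γ.2)]

/-- Slashing a conjugate permutes the cosets. -/
lemma conj_slash (hf : ∀ γ ∈ Γ, f ∣[k] γ = f) (x : SL(2, ℤ) ⧸ Γ) (g : SL(2, ℤ)) :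
    (conj Γ k f x) ∣[k] g = conj Γ k f (g⁻¹ • x) := by
  obtain ⟨a, rfl⟩ := QuotientGroup.mk_surjective x
  rw [MulAction.Quotient.smul_mk, conj_mk hf, conj_mk hf, smul_eq_mul, mul_inv_rev, inv_inv,
    SlashAction.slash_mul]

/-- Slash by `T` is translation by `1`. -/
lemma slash_T_apply (k : ℤ) (f : ℍ → ℂ) (τ : ℍ) :
    (f ∣[k] ModularGroup.T) τ = f ((1 : ℝ) +ᵥ τ) := by
  rw [SL_slash_apply, modular_T_smul]
  have : denom ModularGroup.T τ = 1 := by
    simp [denom, ModularGroup.coe_T]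
  rw [this, one_zpow, mul_one]

/-- Translation by `1` of a conjugate. -/
lemma conj_vadd (hf : ∀ γ ∈ Γ, f ∣[k] γ = f) (x : SL(2, ℤ) ⧸ Γ) (τ : ℍ) :
    conj Γ k f x ((1 : ℝ) +ᵥ τ) = conj Γ k f (ModularGroup.T⁻¹ • x) τ := by
  rw [← slash_T_apply k (conj Γ k f x) τ, conj_slash hf]

end Fermat.Agent.S20.H765
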