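import Fermat.Agent.S20.H765.Orbit

/-!
# S20 / C4 hedge (helper765): the block discrete Fourier transform along `⟨s⟩`-orbits

`dftB s x' x = ζ_h ^ (idx x' * idx x)` if `x', x` are in the same orbit (of length `h`), else `0`.
It is invertible with explicit inverse `dftB'`.
-/

set_option autoImplicit false

open Function Complex
open scoped Real

namespace Fermat.Agent.S20.H765

/-- The standard primitive `h`-th root of unity. -/
noncomputable def zeta (h : ℕ) : ℂ := Complex.exp (2 * π * Complex.I / h)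

lemma zeta_isPrimitiveRoot {h : ℕ} (hh : h ≠ 0) : IsPrimitiveRoot (zeta h) h :=
  Complex.isPrimitiveRoot_exp h hh

lemma zeta_ne_zero (h : ℕ) : zeta h ≠ 0 := Complex.exp_ne_zero _

lemma zeta_pow_self {h : ℕ} (hh : h ≠ 0) : zeta h ^ h = 1 :=
  (zeta_isPrimitiveRoot hh).pow_eq_one

lemma zeta_pow_eq_of_modEq {h m n : ℕ} (hh : h ≠ 0) (hmn : m ≡ n [MOD h]) :
    zeta h ^ m = zeta h ^ n := by
  rw [← Nat.mod_add_div m h, ← Nat.mod_add_div n h, pow_add, pow_add, pow_mul, pow_mul,
    zeta_pow_self hh, one_pow, one_pow, mul_one, mul_one]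
  exact congrArg _ hmn

lemma zeta_pow_eq_exp (h m : ℕ) :
    zeta h ^ m = Complex.exp (2 * π * Complex.I * ((m : ℝ) / (h : ℝ) : ℝ)) := by
  unfold zeta
  rw [← Complex.exp_nat_mul]
  congr 1
  push_cast
  ring

lemma zeta_pow_inj {h m n : ℕ} (hh : h ≠ 0) (hm : m < h) (hn : n < h)
    (e : zeta h ^ m = zeta h ^ n) : m = n :=
  (zeta_isPrimitiveRoot hh).pow_inj hm hn e

/-- Orthogonality of characters of `ℤ/h`. -/
lemma sum_zeta_pow {h a c : ℕ} (hh : h ≠ 0) (ha : a < h) (hc : c < h) :
    ∑ m ∈ Finset.range h, zeta h ^ (a * m) * (zeta h)⁻¹ ^ (m * c)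
      = if a = c then (h : ℂ) else 0 := by
  set ρ : ℂ := zeta h ^ a * (zeta h)⁻¹ ^ c with hρ
  have hterm : ∀ m : ℕ, zeta h ^ (a * m) * (zeta h)⁻¹ ^ (m * c) = ρ ^ m := by
    intro m
    rw [hρ, mul_pow, ← pow_mul, ← pow_mul, mul_comm c m]
  simp only [hterm]
  split_ifs with hac
  · have : ρ = 1 := by
      rw [hρ, hac, inv_pow, mul_inv_cancel₀ (pow_ne_zero _ (zeta_ne_zero h))]
    simp [this]
  · have hρ1 : ρ ≠ 1 := by
      intro h1
      apply hac
      apply zeta_pow_inj hh ha hc
      rw [hρ, inv_pow] at h1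
      have hz : zeta h ^ c ≠ 0 := pow_ne_zero _ (zeta_ne_zero h)
      field_simp at h1
      exact h1
    have hρh : ρ ^ h = 1 := by
      rw [hρ, mul_pow, ← pow_mul, ← pow_mul, mul_comm a h, mul_comm c h, pow_mul, pow_mul,
        inv_pow, zeta_pow_self hh, inv_one, one_pow, one_pow, mul_one]
    have := geom_sum_mul ρ h
    rw [hρh, sub_self] at this
    rcases mul_eq_zero.mp this with h0 | h0
    · exact h0
    · exact absurd (sub_eq_zero.mp h0) hρ1

section Matrices

variable {G : Type*} [Group G] (s : G) {X : Type*} [MulAction G X] [Fintype X] [DecidableEq X]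

/-- The block DFT matrix. -/
noncomputable def dftB : Matrix X X ℂ := fun x' x =>
  if base s x' = base s x then zeta (per s x') ^ (idx s x' * idx s x) else 0

/-- The inverse block DFT matrix. -/
noncomputable def dftB' : Matrix X X ℂ := fun x x' =>
  if base s x = base s x' then
    ((per s x' : ℂ))⁻¹ * (zeta (per s x'))⁻¹ ^ (idx s x * idx s x') else 0

lemma dftB_mul_dftB' : (dftB s : Matrix X X ℂ) * dftB' s = 1 := by
  ext x' x''
  rw [Matrix.mul_apply]
  by_cases hb : base s x' = base s x''
  · -- same orbit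
    have hper : per s x'' = per s x' := (per_eq_of_base_eq s hb).symm
    have hpos := per_pos s x'
    have h1 : ∀ x : X, dftB s x' x * dftB' s x x'' =
        if base s x = base s x' then
          ((per s x' : ℂ))⁻¹ * (zeta (per s x') ^ (idx s x' * idx s x) *
            (zeta (per s x'))⁻¹ ^ (idx s x * idx s x'')) else 0 := by
      intro x
      unfold dftB dftB'
      by_cases hx : base s x = base s x'
      · rw [if_pos hx.symm, if_pos (hx.trans hb), if_pos hx, hper]
        ring
      · rw [if_neg (fun h => hx h.symm), if_neg hx, zero_mul]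
    simp only [h1]
    rw [← Finset.sum_filter, sum_orbit_eq_sum_range s x'
      (fun x => ((per s x' : ℂ))⁻¹ * (zeta (per s x') ^ (idx s x' * idx s x) *
            (zeta (per s x'))⁻¹ ^ (idx s x * idx s x'')))]
    have h2 : ∑ m ∈ Finset.range (per s x'),
        ((per s x' : ℂ))⁻¹ * (zeta (per s x') ^ (idx s x' * idx s (s ^ m • base s x')) *
            (zeta (per s x'))⁻¹ ^ (idx s (s ^ m • base s x') * idx s x''))
        = ∑ m ∈ Finset.range (per s x'),
        ((per s x' : ℂ))⁻¹ * (zeta (per s x') ^ (idx s x' * m) *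
            (zeta (per s x'))⁻¹ ^ (m * idx s x'')) := by
      refine Finset.sum_congr rfl fun m hm => ?_
      rw [Finset.mem_range] at hm
      rw [idx_pow_smul_base s x' hm]
    rw [h2, ← Finset.mul_sum, sum_zeta_pow hpos.ne' (idx_lt_per s x')
      (hper ▸ idx_lt_per s x'')]
    by_cases hi : idx s x' = idx s x''
    · have hxx : x' = x'' := eq_of_base_eq_of_idx_eq s hb hi
      rw [if_pos hi, hxx, Matrix.one_apply_eq]
      have : ((per s x'' : ℕ) : ℂ) ≠ 0 := by
        rw [hper]; exact_mod_cast hpos.ne'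
      rw [hxx] at *
      field_simp
    · have hxx : x' ≠ x'' := fun h => hi (by rw [h])
      rw [if_neg hi, Matrix.one_apply_ne hxx, mul_zero]
  · have hxx : x' ≠ x'' := fun h => hb (by rw [h])
    rw [Matrix.one_apply_ne hxx]
    refine Finset.sum_eq_zero fun x _ => ?_
    unfold dftB dftB'
    by_cases hx : base s x' = base s x
    · rw [if_neg (fun h => hb (hx.trans h)), mul_zero]
    · rw [if_neg hx, zero_mul]

lemma dftB'_mul_dftB : (dftB' s : Matrix X X ℂ) * dftB s = 1 :=
  mul_eq_one_comm.mp (dftB_mul_dftB' s)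

lemma det_dftB_ne_zero : (dftB s : Matrix X X ℂ).det ≠ 0 := by
  have h := congrArg Matrix.det (dftB_mul_dftB' s (X := X))
  rw [Matrix.det_mul, Matrix.det_one] at h
  exact left_ne_zero_of_mul_eq_one h

/-- Behaviour of the inverse DFT matrix under the shift `y ↦ s • y`. -/
lemma dftB'_smul (y x' : X) :
    dftB' s (s • y) x' = (zeta (per s x'))⁻¹ ^ (idx s x') * dftB' s y x' := by
  unfold dftB'
  rw [base_smul]
  by_cases hb : base s y = base s x'
  · rw [if_pos hb, if_pos hb]
    have hpos := per_pos s x'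
    have hper : per s y = per s x' := per_eq_of_base_eq s hb
    have hmod : idx s (s • y) * idx s x' ≡ (idx s y + 1) * idx s x' [MOD per s x'] :=
      Nat.ModEq.mul_right _ (hper ▸ idx_smul_modEq s y)
    have hz : zeta (per s x') ^ (idx s (s • y) * idx s x')
        = zeta (per s x') ^ ((idx s y + 1) * idx s x') :=
      zeta_pow_eq_of_modEq hpos.ne' hmod
    rw [inv_pow, inv_pow, inv_pow, hz, add_mul, one_mul, pow_add]
    field_simp [pow_ne_zero _ (zeta_ne_zero (per s x'))]
  · rw [if_neg hb, if_neg hb, mul_zero]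

end Matrices

end Fermat.Agent.S20.H765
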