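import Fermat.Agent.S20.H765.InftyCore

/-!
# S20 / C4 hedge (helper765): `infty_structure` (package C4 of helper860's skeleton)

Statement identical to `Fermat.Agent.S20.infty_structure` of the skeleton
(`origin/helper860:Fermat/Agent/S20/Infty.lean`), proved from `IsHomBasis` and `div_Δ` only.
-/

set_option autoImplicit false

open UpperHalfPlane ModularForm CongruenceSubgroup Matrix.SpecialLinearGroup EisensteinSeries
open Filter Topology Asymptotics
open scoped MatrixGroups ModularForm Manifold Real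

namespace Fermat.Agent.S20.H765

section Linear

variable {Γ : Subgroup SL(2, ℤ)}

lemma conj_mul_levelOne {K n k : ℤ} (hK : K = n + k) {a f : ℍ → ℂ} (ha : IsMF ⊤ n a)
    (y : SL(2, ℤ) ⧸ Γ) : conj Γ K (a * f) y = a * conj Γ k f y := by
  subst hK
  unfold conj
  rw [ModularForm.mul_slash_SL2, isMF_top_invariant ha]

lemma conj_sum_smul {ι : Type*} (s : Finset ι) (K : ℤ) (c : ι → ℂ) (g : ι → ℍ → ℂ)
    (y : SL(2, ℤ) ⧸ Γ) :
    conj Γ K (∑ j ∈ s, c j • g j) y = ∑ j ∈ s, c j • conj Γ K (g j) y := by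
  unfold conj
  rw [SlashAction.sum_slash]
  refine Finset.sum_congr rfl fun j _ => ?_
  rw [ModularForm.SL_smul_slash]

variable [Fintype (SL(2, ℤ) ⧸ Γ)] [DecidableEq (SL(2, ℤ) ⧸ Γ)]

/-- The normalised DFT components of a combination `∑ c_j a_j F_j` with level-one `a_j`. -/
lemma Uf_combination {ι : Type*} [Fintype ι] (K : ℤ) (k : ι → ℤ) (c : ι → ℂ)
    (a F : ι → ℍ → ℂ) (ha : ∀ j, IsMF ⊤ (K - k j) (a j)) (x' : SL(2, ℤ) ⧸ Γ) (τ : ℍ) :
    Uf Γ K (∑ j, c j • (a j * F j)) x' τ
      = ∑ j, c j * (a j τ * Uf Γ (k j) (F j) x' τ) := by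
  simp only [Uf_apply, Wf_apply]
  have h1 : ∀ y : SL(2, ℤ) ⧸ Γ, conj Γ K (∑ j, c j • (a j * F j)) y τ
      = ∑ j, c j * (a j τ * conj Γ (k j) (F j) y τ) := by
    intro y
    rw [conj_sum_smul, Finset.sum_apply]
    refine Finset.sum_congr rfl fun j _ => ?_
    rw [conj_mul_levelOne (by ring : K = (K - k j) + k j) (ha j)]
    simp
  simp only [h1, Finset.mul_sum]
  rw [Finset.sum_comm]
  refine Finset.sum_congr rfl fun j _ => ?_
  refine Finset.sum_congr rfl fun y _ => ?_
  ring

end Linear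

section Main

variable {N : ℕ} [NeZero N] {ι : Type} [Fintype ι] {k : ι → ℤ} {F : ι → ℍ → ℂ}

omit [NeZero N] in
lemma basis_ne_zero (hB : IsHomBasis N k F) (j : ι) : F j ≠ 0 := by
  classical
  intro h0
  have h := hB.indep (k j) (fun i => if i = j then 1 else 0) ?_ ?_ j
  · simp only [if_true] at h
    have := congrFun h UpperHalfPlane.I
    simp at this
  · intro i
    by_cases hi : i = j
    · subst hi
      simp only [if_true]
      exact isMF_congr_weight (by ring) isMF_one
    · simp only [if_neg hi]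
      exact isMF_zero _ _
  · rw [Finset.sum_eq_single j]
    · simp [h0]
    · intro i _ hi
      simp [hi]
    · intro hj
      exact absurd (Finset.mem_univ j) hj

omit [NeZero N] in
lemma basis_even (hB : IsHomBasis N k F) (j : ι) : Even (k j) :=
  even_weight_of_ne_zero (neg_one_mem_Gamma0 N) (hB.mem j) (basis_ne_zero hB j)

omit [NeZero N] in
lemma exists_big_weight (k : ι → ℤ) : ∃ K : ℤ, Even K ∧ ∀ j, 12 ≤ K - k j := by
  refine ⟨2 * (∑ i, |k i| + 6), even_two_mul _, fun j => ?_⟩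
  have h1 : |k j| ≤ ∑ i, |k i| :=
    Finset.single_le_sum (f := fun i => |k i|) (fun i _ => abs_nonneg _) (Finset.mem_univ j)
  have h2 : k j ≤ |k j| := le_abs_self _
  have h3 : 0 ≤ |k j| := abs_nonneg _
  linarith

lemma isMF_discriminant : IsMF ⊤ 12 ModularForm.discriminant := by
  refine ⟨div_mdiff_discriminant, fun γ _ => div_slash_discriminant γ, fun g => ?_⟩
  rw [div_slash_discriminant]
  exact ModularForm.discriminant_isZeroAtImInfty.boundedAtFilter

/-- The limits of the normalised DFT components of a homogeneous basis are independent. -/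
theorem rows_indep (hB : IsHomBasis N k F) :
    LinearIndependent ℂ (fun j : ι => fun x' : SL(2, ℤ) ⧸ Gamma0 N =>
      valueAtInfty (Uf (Gamma0 N) (k j) (F j) x')) := by
  classical
  rw [Fintype.linearIndependent_iff]
  intro c hc
  obtain ⟨K, hKeven, hK⟩ := exists_big_weight k
  have ha : ∀ j, ∃ a : ℍ → ℂ, IsMF ⊤ (K - k j) a ∧ Tendsto a atImInfty (𝓝 1) := fun j =>
    exists_levelOne_tendsto_one (hKeven.sub (basis_even hB j)) (by linarith [hK j])
  choose a haMF haT using ha
  set f : ℍ → ℂ := ∑ j, c j • (a j * F j) with hf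
  have hfMF : IsMF (Gamma0 N) K f :=
    IsMF_sum _ fun j _ => IsMF_smul _
      (isMF_congr_weight (by ring) (IsMF_mul_levelOne (haMF j) (hB.mem j)))
  -- all normalised components of `f` tend to zero
  have hlim : ∀ x' : SL(2, ℤ) ⧸ Gamma0 N,
      Tendsto (Uf (Gamma0 N) K f x') atImInfty (𝓝 0) := by
    intro x'
    have h1 : Tendsto (fun τ => ∑ j, c j * (a j τ * Uf (Gamma0 N) (k j) (F j) x' τ)) atImInfty
        (𝓝 (∑ j, c j * (1 * valueAtInfty (Uf (Gamma0 N) (k j) (F j) x')))) :=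
      tendsto_finsetSum _ fun j _ =>
        ((haT j).mul (Uf_tendsto (hB.mem j) x')).const_mul (c j)
    have h2 : ∑ j, c j * (1 * valueAtInfty (Uf (Gamma0 N) (k j) (F j) x')) = 0 := by
      have := congrFun hc x'
      simpa [Finset.sum_apply] using this
    rw [h2] at h1
    refine h1.congr fun τ => ?_
    rw [hf, Uf_combination K k c a F haMF]
  -- hence `f` is divisible by `Δ`
  have hdec : ∀ g : SL(2, ℤ),
      (f ∣[K] g) =O[atImInfty] fun τ : ℍ => Real.exp (-2 * Real.pi * τ.im) := by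
    intro g
    have := conj_decay hfMF hlim ((g⁻¹ : SL(2, ℤ)) : SL(2, ℤ) ⧸ Gamma0 N)
    rwa [conj_mk hfMF.2.1, inv_inv] at this
  obtain ⟨h, hhMF, hfac⟩ := div_Δ hfMF hdec
  obtain ⟨b, hb, hsum⟩ := hB.span (K - 12) h hhMF
  have hindep := hB.indep K (fun j => c j • a j - ModularForm.discriminant * b j)
    (fun j => IsMF_sub (IsMF_smul _ (haMF j))
      (isMF_congr_weight (by ring) (IsMF_mul_levelOne isMF_discriminant (hb j))))
    (by
      have : ∑ j, (c j • a j - ModularForm.discriminant * b j) * F j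
          = f - ModularForm.discriminant * h := by
        rw [hf, hsum, Finset.mul_sum, ← Finset.sum_sub_distrib]
        refine Finset.sum_congr rfl fun j _ => ?_
        rw [sub_mul, smul_mul_assoc, mul_assoc]
      rw [this, hfac, sub_self])
  intro j
  have h1 : c j • a j = ModularForm.discriminant * b j := sub_eq_zero.mp (hindep j)
  have h2 : Tendsto (c j • a j) atImInfty (𝓝 (c j • (1 : ℂ))) := (haT j).const_smul (c j)
  have hbb : IsBoundedUnder (· ≤ ·) atImInfty (norm ∘ b j) := by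
    have := isMF_top_bdd (hb j)
    unfold IsBoundedAtImInfty BoundedAtFilter at this
    exact this.isBoundedUnder_le
  have h3 : Tendsto (ModularForm.discriminant * b j) atImInfty (𝓝 0) :=
    ModularForm.discriminant_isZeroAtImInfty.zero_mul_isBoundedUnder_le hbb
  rw [h1] at h2
  have := tendsto_nhds_unique h2 h3
  simpa using this

/-- **C4** (helper860 skeleton statement): factorisation of the conjugate matrix near `i∞`. -/
theorem infty_structure_h765 (hB : IsHomBasis N k F) :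
    ∃ (e : (SL(2, ℤ) ⧸ Gamma0 N) → ℝ)
      (B : Matrix (SL(2, ℤ) ⧸ Gamma0 N) (SL(2, ℤ) ⧸ Gamma0 N) ℂ)
      (U : ℍ → Matrix ι (SL(2, ℤ) ⧸ Gamma0 N) ℂ)
      (L : Matrix ι (SL(2, ℤ) ⧸ Gamma0 N) ℂ),
      (∀ q, 0 ≤ e q ∧ e q < 1) ∧
      (2 * ∑ q, e q = ((Gamma0 N).index : ℝ) - numCusps N) ∧
      B.det ≠ 0 ∧
      (∀ (τ : ℍ) (j : ι) (q : SL(2, ℤ) ⧸ Gamma0 N),
        conj (Gamma0 N) (k j) (F j) q τ =
          ∑ q', U τ j q' * Complex.exp (2 * Real.pi * Complex.I * e q' * τ) * B q' q) ∧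
      (∀ j q, Tendsto (fun τ : ℍ => U τ j q) atImInfty (𝓝 (L j q))) ∧
      LinearIndependent ℂ (fun j : ι => L j) := by
  refine ⟨expo, dftB sT, fun τ j x' => Uf (Gamma0 N) (k j) (F j) x' τ,
    fun j x' => valueAtInfty (Uf (Gamma0 N) (k j) (F j) x'), ?_, ?_, det_dftB_ne_zero sT, ?_, ?_,
    rows_indep hB⟩
  · exact fun q => ⟨expo_nonneg q, expo_lt_one q⟩
  · have h := two_mul_sum_idx_div_per (sT : SL(2, ℤ)) (X := SL(2, ℤ) ⧸ Gamma0 N)
    have hidx : (Fintype.card (SL(2, ℤ) ⧸ Gamma0 N) : ℝ) = ((Gamma0 N).index : ℝ) := by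
      rw [Subgroup.index_eq_card, Nat.card_eq_fintype_card]
    rw [hidx] at h
    refine h.trans ?_
    unfold numCusps
    have hz : Subgroup.zpowers (sT : SL(2, ℤ)) = Subgroup.zpowers ModularGroup.T :=
      Subgroup.zpowers_inv
    rw [hz]
    rfl
  · intro τ j q
    rw [conj_eq_sum_Wf]
    refine Finset.sum_congr rfl fun x' _ => ?_
    rw [Wf_eq_Uf]
  · intro j q
    exact Uf_tendsto (hB.mem j) q

end Main

end Fermat.Agent.S20.H765
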