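import Mathlib

/-!
# S20 / C4 hedge (helper765): twisted-periodic holomorphic functions have a limit at `i∞`

If `w : ℍ → ℂ` is holomorphic, bounded at `i∞` and `w (τ + 1) = exp (2πi e) w τ` with
`0 ≤ e < 1`, then `u τ := exp (-2πi e τ) w τ` is `1`-periodic, holomorphic, bounded at `i∞`, and
`u - u(∞) = O(exp (-2π Im τ))`.
-/

set_option autoImplicit false

open UpperHalfPlane Filter Topology Asymptotics Complex
open scoped Real Manifold

namespace Fermat.Agent.S20.H765

/-- `τ ↦ exp (c τ)` on the upper half plane. -/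
noncomputable def expLin (c : ℂ) : ℍ → ℂ := fun τ => Complex.exp (c * (τ : ℂ))

lemma expLin_mdiff (c : ℂ) : MDiff (expLin c) := by
  rw [UpperHalfPlane.mdifferentiable_iff]
  have h : DifferentiableOn ℂ (fun z : ℂ => Complex.exp (c * z)) {z : ℂ | 0 < z.im} :=
    (Complex.differentiable_exp.comp
      ((differentiable_const c).mul differentiable_id)).differentiableOn
  refine h.congr fun z hz => ?_
  simp [expLin, Function.comp, ofComplex_apply_of_im_pos hz]

lemma expLin_ne_zero (c : ℂ) (τ : ℍ) : expLin c τ ≠ 0 := Complex.exp_ne_zero _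

lemma expLin_add (c c' : ℂ) (τ : ℍ) : expLin (c + c') τ = expLin c τ * expLin c' τ := by
  simp [expLin, add_mul, Complex.exp_add]

lemma expLin_zero (τ : ℍ) : expLin 0 τ = 1 := by simp [expLin]

lemma expLin_vadd (c : ℂ) (τ : ℍ) :
    expLin c ((1 : ℝ) +ᵥ τ) = Complex.exp c * expLin c τ := by
  simp [expLin, mul_add, Complex.exp_add]

lemma norm_expLin (c : ℂ) (τ : ℍ) : ‖expLin c τ‖ = Real.exp ((c * (τ : ℂ)).re) := by
  simp [expLin, Complex.norm_exp]

/-- norm of `exp (2πi r τ)` for real `r` -/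
lemma norm_expLin_real (r : ℝ) (τ : ℍ) :
    ‖expLin (2 * π * Complex.I * r) τ‖ = Real.exp (-2 * π * r * τ.im) := by
  rw [norm_expLin]
  congr 1
  simp [Complex.mul_re, Complex.mul_im]

/-- `1`-periodicity in the `ℂ`-form used by Mathlib's `q`-expansion API. -/
lemma periodic_of_vadd {f : ℍ → ℂ} (hf : ∀ τ : ℍ, f ((1 : ℝ) +ᵥ τ) = f τ) :
    Function.Periodic (f ∘ ofComplex) ((1 : ℝ) : ℂ) := by
  intro w
  by_cases hw : 0 < im w
  · have h1 : 0 < im (w + ((1 : ℝ) : ℂ)) := by simpa using hw
    simp only [Function.comp_apply, ofComplex_apply_of_im_pos h1, ofComplex_apply_of_im_pos hw]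
    rw [← hf ⟨w, hw⟩]
    congr 1
    ext
    simp [add_comm]
  · have hw' : im w ≤ 0 := not_lt.mp hw
    have h1 : im (w + ((1 : ℝ) : ℂ)) ≤ 0 := by simpa using hw'
    simp only [Function.comp_apply, ofComplex_apply_of_im_nonpos h1,
      ofComplex_apply_of_im_nonpos hw']

lemma tendsto_expLin_zero {r : ℝ} (hr : 0 < r) :
    Tendsto (expLin (2 * π * Complex.I * r)) atImInfty (𝓝 0) := by
  rw [tendsto_zero_iff_norm_tendsto_zero]
  simp only [norm_expLin_real]
  have h1 : Tendsto (fun τ : ℍ => τ.im) atImInfty atTop := tendsto_comap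
  have h2 : Tendsto (fun y : ℝ => Real.exp (-(2 * π * r * y))) atTop (𝓝 0) := by
    have h3 : Tendsto (fun y : ℝ => (2 * π * r) * y) atTop atTop :=
      tendsto_id.const_mul_atTop (by positivity)
    exact Real.tendsto_exp_neg_atTop_nhds_zero.comp h3
  refine (h2.comp h1).congr fun τ => ?_
  simp only [Function.comp_apply]
  congr 1
  ring

/-- **Twisted periodic functions**: the normalised function `u = exp(-2πi e τ) w` is holomorphic,
`1`-periodic, bounded, and converges exponentially fast to its value at `i∞`. -/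
theorem twisted_normalised {w : ℍ → ℂ} {e : ℝ} (he1 : e < 1)
    (hw : MDiff w) (hb : IsBoundedAtImInfty w)
    (hper : ∀ τ : ℍ, w ((1 : ℝ) +ᵥ τ) = Complex.exp (2 * π * Complex.I * e) * w τ) :
    MDiff (expLin (-(2 * π * Complex.I * e)) * w) ∧
    (∀ τ : ℍ, (expLin (-(2 * π * Complex.I * e)) * w) ((1 : ℝ) +ᵥ τ) =
      (expLin (-(2 * π * Complex.I * e)) * w) τ) ∧
    IsBoundedAtImInfty (expLin (-(2 * π * Complex.I * e)) * w) ∧
    (fun τ => (expLin (-(2 * π * Complex.I * e)) * w) τ -
        valueAtInfty (expLin (-(2 * π * Complex.I * e)) * w))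
      =O[atImInfty] fun τ => Real.exp (-2 * π * τ.im) := by
  set c : ℂ := 2 * π * Complex.I * e with hc
  set u : ℍ → ℂ := expLin (-c) * w with hu
  have hu_mdiff : MDiff u := (expLin_mdiff _).mul hw
  have hu_per : ∀ τ : ℍ, u ((1 : ℝ) +ᵥ τ) = u τ := by
    intro τ
    simp only [hu, Pi.mul_apply, expLin_vadd, hper]
    have : Complex.exp (-c) * Complex.exp c = 1 := by
      rw [← Complex.exp_add]; simp
    calc Complex.exp (-c) * expLin (-c) τ * (Complex.exp c * w τ)
        = (Complex.exp (-c) * Complex.exp c) * (expLin (-c) τ * w τ) := by ring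
      _ = expLin (-c) τ * w τ := by rw [this, one_mul]
  -- the auxiliary function `v = exp(2πiτ) u`
  set v : ℍ → ℂ := expLin (2 * π * Complex.I * (1 - e : ℝ)) * w with hv
  have hv_eq : ∀ τ, v τ = expLin (2 * π * Complex.I) τ * u τ := by
    intro τ
    simp only [hv, hu, Pi.mul_apply, ← mul_assoc, ← expLin_add]
    congr 2
    rw [hc]; push_cast; ring
  have hv_mdiff : MDiff v := (expLin_mdiff _).mul hw
  have hv_per : ∀ τ : ℍ, v ((1 : ℝ) +ᵥ τ) = v τ := by
    intro τ
    rw [hv_eq, hv_eq, hu_per, expLin_vadd]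
    have : Complex.exp (2 * π * Complex.I) = 1 := Complex.exp_two_pi_mul_I
    rw [this, one_mul]
  have hv_zero : IsZeroAtImInfty v := by
    have h0 := tendsto_expLin_zero (r := 1 - e) (by linarith)
    have hb' : IsBoundedUnder (· ≤ ·) atImInfty (norm ∘ w) := by
      have := hb
      unfold IsBoundedAtImInfty BoundedAtFilter at this
      exact this.isBoundedUnder_le
    exact h0.zero_mul_isBoundedUnder_le hb'
  have hv_bdd : IsBoundedAtImInfty v := hv_zero.boundedAtFilter
  have hv_decay := hv_zero.exp_decay_atImInfty (h := 1) one_pos (periodic_of_vadd hv_per)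
    hv_mdiff hv_bdd
  have hu_bdd : IsBoundedAtImInfty u := by
    obtain ⟨C, hC⟩ := hv_decay.bound
    unfold IsBoundedAtImInfty BoundedAtFilter
    refine IsBigO.of_bound C ?_
    filter_upwards [hC] with τ hτ
    have h1 : ‖v τ‖ = Real.exp (-2 * π * τ.im) * ‖u τ‖ := by
      rw [hv_eq, norm_mul]
      congr 1
      have := norm_expLin_real 1 τ
      simpa using this
    rw [h1] at hτ
    simp only [div_one, Real.norm_eq_abs, Real.abs_exp] at hτ
    have hpos : 0 < Real.exp (-2 * π * τ.im) := Real.exp_pos _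
    simp only [Pi.one_apply, norm_one, mul_one]
    have : Real.exp (-2 * π * τ.im) * ‖u τ‖ ≤ Real.exp (-2 * π * τ.im) * C := by linarith
    exact le_of_mul_le_mul_left this hpos
  refine ⟨hu_mdiff, hu_per, hu_bdd, ?_⟩
  have := exp_decay_sub_atImInfty (h := 1) one_pos (periodic_of_vadd hu_per) hu_mdiff hu_bdd
  simpa using this

end Fermat.Agent.S20.H765
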