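import Fermat.Agent.S20.H765.MFApi
import Fermat.Agent.S20.H765.Twisted
import Fermat.Agent.S20.H765.Dft

/-!
# S20 / C4 hedge (helper765): Fourier decomposition of conjugates along `T`-orbits

For a modular form `f` of weight `k` on `Γ` (finite index), the vector of conjugates
`(conj Γ k f x)_x` is decomposed by the block DFT along the `⟨T⟩`-orbits on `SL(2,ℤ) ⧸ Γ`:
`Wf x' = ∑_y dftB' y x' • conj f y` satisfies `Wf x' (τ + 1) = exp(2πi e_{x'}) Wf x' τ`, and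
`Uf x' = exp(-2πi e_{x'} τ) Wf x'` is `1`-periodic with a limit at `i∞`.
-/

set_option autoImplicit false

open UpperHalfPlane ModularForm CongruenceSubgroup Matrix.SpecialLinearGroup EisensteinSeries
open Filter Topology Asymptotics
open scoped MatrixGroups ModularForm Manifold Real

namespace Fermat.Agent.S20.H765

variable {Γ : Subgroup SL(2, ℤ)} [Fintype (SL(2, ℤ) ⧸ Γ)] [DecidableEq (SL(2, ℤ) ⧸ Γ)]

/-- The shift: `conj f x (τ + 1) = conj f (sT • x) τ`. -/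
noncomputable abbrev sT : SL(2, ℤ) := ModularGroup.T⁻¹

/-- The exponent `e_{x'} = idx x' / per x' ∈ [0, 1)`. -/
noncomputable def expo (x' : SL(2, ℤ) ⧸ Γ) : ℝ := (idx sT x' : ℝ) / (per sT x' : ℝ)

omit [DecidableEq (SL(2, ℤ) ⧸ Γ)] in
lemma expo_nonneg (x' : SL(2, ℤ) ⧸ Γ) : 0 ≤ expo x' := by
  unfold expo; positivity

omit [DecidableEq (SL(2, ℤ) ⧸ Γ)] in
lemma expo_lt_one (x' : SL(2, ℤ) ⧸ Γ) : expo x' < 1 := by
  unfold expo
  have hp : (0 : ℝ) < per sT x' := by exact_mod_cast per_pos sT x'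
  rw [div_lt_one hp]
  exact_mod_cast idx_lt_per sT x'

omit [DecidableEq (SL(2, ℤ) ⧸ Γ)] in
lemma zeta_pow_idx_eq_exp (x' : SL(2, ℤ) ⧸ Γ) :
    zeta (per sT x') ^ (idx sT x') = Complex.exp (2 * π * Complex.I * (expo x' : ℝ)) := by
  rw [zeta_pow_eq_exp]; rfl

/-- The DFT of the conjugates of `f`. -/
noncomputable def Wf (Γ : Subgroup SL(2, ℤ)) [Fintype (SL(2, ℤ) ⧸ Γ)]
    [DecidableEq (SL(2, ℤ) ⧸ Γ)] (k : ℤ) (f : ℍ → ℂ) (x' : SL(2, ℤ) ⧸ Γ) : ℍ → ℂ :=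
  ∑ y : SL(2, ℤ) ⧸ Γ, dftB' sT y x' • conj Γ k f y

/-- The normalised (`1`-periodic) DFT components. -/
noncomputable def Uf (Γ : Subgroup SL(2, ℤ)) [Fintype (SL(2, ℤ) ⧸ Γ)]
    [DecidableEq (SL(2, ℤ) ⧸ Γ)] (k : ℤ) (f : ℍ → ℂ) (x' : SL(2, ℤ) ⧸ Γ) : ℍ → ℂ :=
  expLin (-(2 * π * Complex.I * (expo x' : ℝ))) * Wf Γ k f x'

variable {k : ℤ} {f : ℍ → ℂ}

lemma Wf_apply (x' : SL(2, ℤ) ⧸ Γ) (τ : ℍ) :
    Wf Γ k f x' τ = ∑ y : SL(2, ℤ) ⧸ Γ, dftB' sT y x' * conj Γ k f y τ := by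
  simp [Wf, Finset.sum_apply]

omit [Fintype (SL(2, ℤ) ⧸ Γ)] [DecidableEq (SL(2, ℤ) ⧸ Γ)] in
lemma conj_mdiff (hf : IsMF Γ k f) (y : SL(2, ℤ) ⧸ Γ) : MDiff (conj Γ k f y) :=
  div_mdiff_slash hf.1 k _

omit [Fintype (SL(2, ℤ) ⧸ Γ)] [DecidableEq (SL(2, ℤ) ⧸ Γ)] in
lemma conj_bdd (hf : IsMF Γ k f) (y : SL(2, ℤ) ⧸ Γ) : IsBoundedAtImInfty (conj Γ k f y) :=
  hf.2.2 _

lemma Wf_mdiff (hf : IsMF Γ k f) (x' : SL(2, ℤ) ⧸ Γ) : MDiff (Wf Γ k f x') := by
  unfold Wf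
  have : ∀ s : Finset (SL(2, ℤ) ⧸ Γ), MDiff (∑ y ∈ s, dftB' sT y x' • conj Γ k f y) := by
    intro s
    induction s using Finset.induction_on with
    | empty =>
      rw [Finset.sum_empty]
      exact (mdifferentiable_const : MDiff (fun _ : ℍ => (0 : ℂ)))
    | insert i t hi IH =>
      rw [Finset.sum_insert hi]
      exact ((conj_mdiff hf i).const_smul _).add IH
  exact this _

lemma Wf_bdd (hf : IsMF Γ k f) (x' : SL(2, ℤ) ⧸ Γ) : IsBoundedAtImInfty (Wf Γ k f x') :=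
  isBounded_sum _ fun y _ => isBounded_smul _ (conj_bdd hf y)

/-- Twisted periodicity of the DFT components. -/
lemma Wf_vadd (hf : IsMF Γ k f) (x' : SL(2, ℤ) ⧸ Γ) (τ : ℍ) :
    Wf Γ k f x' ((1 : ℝ) +ᵥ τ) =
      Complex.exp (2 * π * Complex.I * (expo x' : ℝ)) * Wf Γ k f x' τ := by
  have hz : zeta (per sT x') ≠ 0 := zeta_ne_zero _
  have key : (zeta (per sT x'))⁻¹ ^ (idx sT x') * Wf Γ k f x' ((1 : ℝ) +ᵥ τ)
      = Wf Γ k f x' τ := by
    rw [Wf_apply, Wf_apply, Finset.mul_sum]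
    rw [← Equiv.sum_comp (MulAction.toPerm (sT : SL(2, ℤ)))
      (fun z => dftB' sT z x' * conj Γ k f z τ)]
    refine Finset.sum_congr rfl fun y _ => ?_
    rw [MulAction.toPerm_apply, dftB'_smul, conj_vadd hf.2.1]
    ring
  rw [← zeta_pow_idx_eq_exp, ← key, ← mul_assoc, inv_pow,
    mul_inv_cancel₀ (pow_ne_zero _ hz), one_mul]

/-- Fourier inversion: the conjugates are recovered from the DFT components. -/
lemma conj_eq_sum_Wf (x : SL(2, ℤ) ⧸ Γ) (τ : ℍ) :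
    conj Γ k f x τ = ∑ x' : SL(2, ℤ) ⧸ Γ, Wf Γ k f x' τ * dftB sT x' x := by
  simp only [Wf_apply, Finset.sum_mul]
  rw [Finset.sum_comm]
  have h1 : ∀ y : SL(2, ℤ) ⧸ Γ,
      ∑ x' : SL(2, ℤ) ⧸ Γ, dftB' sT y x' * conj Γ k f y τ * dftB sT x' x
        = conj Γ k f y τ * (dftB' sT * dftB sT : Matrix _ _ ℂ) y x := by
    intro y
    rw [Matrix.mul_apply, Finset.mul_sum]
    refine Finset.sum_congr rfl fun x' _ => ?_
    ring
  simp only [h1, dftB'_mul_dftB, Matrix.one_apply]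
  simp

lemma Uf_apply (x' : SL(2, ℤ) ⧸ Γ) (τ : ℍ) :
    Uf Γ k f x' τ = expLin (-(2 * π * Complex.I * (expo x' : ℝ))) τ * Wf Γ k f x' τ := rfl

lemma Wf_eq_Uf (x' : SL(2, ℤ) ⧸ Γ) (τ : ℍ) :
    Wf Γ k f x' τ = Uf Γ k f x' τ * Complex.exp (2 * π * Complex.I * (expo x' : ℝ) * τ) := by
  rw [Uf_apply]
  have : expLin (-(2 * π * Complex.I * (expo x' : ℝ))) τ
      * Complex.exp (2 * π * Complex.I * (expo x' : ℝ) * τ) = 1 := by
    unfold expLin
    rw [← Complex.exp_add]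
    simp
  calc Wf Γ k f x' τ = (expLin (-(2 * π * Complex.I * (expo x' : ℝ))) τ
      * Complex.exp (2 * π * Complex.I * (expo x' : ℝ) * τ)) * Wf Γ k f x' τ := by
        rw [this, one_mul]
    _ = _ := by ring

/-- The package of analytic properties of the normalised DFT components. -/
lemma Uf_props (hf : IsMF Γ k f) (x' : SL(2, ℤ) ⧸ Γ) :
    MDiff (Uf Γ k f x') ∧ IsBoundedAtImInfty (Uf Γ k f x') ∧
    (fun τ => Uf Γ k f x' τ - valueAtInfty (Uf Γ k f x'))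
      =O[atImInfty] fun τ => Real.exp (-2 * π * τ.im) := by
  obtain ⟨h1, _, h3, h4⟩ := twisted_normalised (expo_lt_one x') (Wf_mdiff hf x')
    (Wf_bdd hf x') (Wf_vadd hf x')
  exact ⟨h1, h3, h4⟩

lemma tendsto_exp_im : Tendsto (fun τ : ℍ => Real.exp (-2 * π * τ.im)) atImInfty (𝓝 0) := by
  have h1 : Tendsto (fun τ : ℍ => τ.im) atImInfty atTop := tendsto_comap
  have h3 : Tendsto (fun y : ℝ => (2 * π) * y) atTop atTop :=
    tendsto_id.const_mul_atTop (by positivity)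
  refine ((Real.tendsto_exp_neg_atTop_nhds_zero.comp h3).comp h1).congr fun τ => ?_
  simp only [Function.comp_apply]
  congr 1
  ring

lemma Uf_tendsto (hf : IsMF Γ k f) (x' : SL(2, ℤ) ⧸ Γ) :
    Tendsto (Uf Γ k f x') atImInfty (𝓝 (valueAtInfty (Uf Γ k f x'))) := by
  have h := (Uf_props hf x').2.2
  have h0 : Tendsto (fun τ => Uf Γ k f x' τ - valueAtInfty (Uf Γ k f x')) atImInfty (𝓝 0) :=
    h.trans_tendsto tendsto_exp_im
  have := h0.add_const (valueAtInfty (Uf Γ k f x'))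
  simpa using this

lemma Uf_decay_of_tendsto_zero (hf : IsMF Γ k f) (x' : SL(2, ℤ) ⧸ Γ)
    (h0 : Tendsto (Uf Γ k f x') atImInfty (𝓝 0)) :
    Uf Γ k f x' =O[atImInfty] fun τ => Real.exp (-2 * π * τ.im) := by
  have hval : valueAtInfty (Uf Γ k f x') = 0 :=
    tendsto_nhds_unique (Uf_tendsto hf x') h0
  have h := (Uf_props hf x').2.2
  simpa [hval] using h

/-- If all normalised DFT components tend to `0`, every conjugate decays like `exp(-2π Im τ)`. -/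
lemma conj_decay (hf : IsMF Γ k f)
    (h0 : ∀ x' : SL(2, ℤ) ⧸ Γ, Tendsto (Uf Γ k f x') atImInfty (𝓝 0)) (x : SL(2, ℤ) ⧸ Γ) :
    conj Γ k f x =O[atImInfty] fun τ => Real.exp (-2 * π * τ.im) := by
  have hfun : conj Γ k f x = fun τ => ∑ x' : SL(2, ℤ) ⧸ Γ,
      Uf Γ k f x' τ * (Complex.exp (2 * π * Complex.I * (expo x' : ℝ) * τ) * dftB sT x' x) := by
    funext τ
    rw [conj_eq_sum_Wf]
    refine Finset.sum_congr rfl fun x' _ => ?_
    rw [Wf_eq_Uf]; ring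
  rw [hfun]
  refine IsBigO.fun_sum fun x' _ => ?_
  have h1 := Uf_decay_of_tendsto_zero hf x' (h0 x')
  have h2 : (fun τ : ℍ => Complex.exp (2 * π * Complex.I * (expo x' : ℝ) * τ) * dftB sT x' x)
      =O[atImInfty] fun _ => (1 : ℝ) := by
    refine IsBigO.of_bound ‖dftB sT x' x‖ (Eventually.of_forall fun τ => ?_)
    rw [norm_mul, norm_one, mul_one]
    have : ‖Complex.exp (2 * π * Complex.I * (expo x' : ℝ) * τ)‖ ≤ 1 := by
      have := norm_expLin_real (expo x') τ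
      unfold expLin at this
      rw [this, Real.exp_le_one_iff]
      have h0 := expo_nonneg x'
      have h1 : 0 < τ.im := τ.im_pos
      have : 0 ≤ 2 * π * expo x' * τ.im := by positivity
      linarith
    calc ‖Complex.exp (2 * π * Complex.I * (expo x' : ℝ) * τ)‖ * ‖dftB sT x' x‖
        ≤ 1 * ‖dftB sT x' x‖ := by gcongr
      _ = ‖dftB sT x' x‖ := one_mul _
  have := h1.mul h2
  simpa using this

end Fermat.Agent.S20.H765
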