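import Fermat.Agent.S20.H765.ConjApi

/-!
# S20 / C4 hedge (helper765): closure properties of `IsMF`, level-one monomials
-/

set_option autoImplicit false

open UpperHalfPlane ModularForm CongruenceSubgroup Matrix.SpecialLinearGroup EisensteinSeries
open Filter Topology Asymptotics
open scoped MatrixGroups ModularForm Manifold

namespace Fermat.Agent.S20.H765

variable {Γ : Subgroup SL(2, ℤ)} {k : ℤ} {f g : ℍ → ℂ}

lemma isMF_congr_weight {k k' : ℤ} (h : k = k') (hf : IsMF Γ k f) : IsMF Γ k' f := h ▸ hf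

lemma isMF_zero (Γ : Subgroup SL(2, ℤ)) (k : ℤ) : IsMF Γ k 0 := by
  refine ⟨mdifferentiable_const, fun γ _ => SlashAction.zero_slash _ _, fun g => ?_⟩
  rw [SlashAction.zero_slash]
  exact (boundedAtImInftySubalgebra ℂ).zero_mem

lemma isBounded_add {f g : ℍ → ℂ} (hf : IsBoundedAtImInfty f) (hg : IsBoundedAtImInfty g) :
    IsBoundedAtImInfty (f + g) := (boundedAtImInftySubalgebra ℂ).add_mem hf hg

lemma isBounded_mul {f g : ℍ → ℂ} (hf : IsBoundedAtImInfty f) (hg : IsBoundedAtImInfty g) :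
    IsBoundedAtImInfty (f * g) := (boundedAtImInftySubalgebra ℂ).mul_mem hf hg

lemma isBounded_smul (c : ℂ) {f : ℍ → ℂ} (hf : IsBoundedAtImInfty f) :
    IsBoundedAtImInfty (c • f) := (boundedAtImInftySubalgebra ℂ).smul_mem hf c

lemma isBounded_sum {ι : Type*} (s : Finset ι) {f : ι → ℍ → ℂ}
    (hf : ∀ i ∈ s, IsBoundedAtImInfty (f i)) : IsBoundedAtImInfty (∑ i ∈ s, f i) :=
  (boundedAtImInftySubalgebra ℂ).sum_mem hf

lemma IsMF_add (hf : IsMF Γ k f) (hg : IsMF Γ k g) : IsMF Γ k (f + g) := by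
  refine ⟨hf.1.add hg.1, fun γ hγ => ?_, fun γ => ?_⟩
  · rw [SlashAction.add_slash, hf.2.1 γ hγ, hg.2.1 γ hγ]
  · rw [SlashAction.add_slash]
    exact isBounded_add (hf.2.2 γ) (hg.2.2 γ)

lemma IsMF_smul (c : ℂ) (hf : IsMF Γ k f) : IsMF Γ k (c • f) := by
  refine ⟨hf.1.const_smul c, fun γ hγ => ?_, fun γ => ?_⟩
  · rw [ModularForm.SL_smul_slash, hf.2.1 γ hγ]
  · rw [ModularForm.SL_smul_slash]
    exact isBounded_smul c (hf.2.2 γ)

lemma IsMF_neg (hf : IsMF Γ k f) : IsMF Γ k (-f) := by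
  have := IsMF_smul (-1 : ℂ) hf
  simpa using this

lemma IsMF_sub (hf : IsMF Γ k f) (hg : IsMF Γ k g) : IsMF Γ k (f - g) := by
  rw [sub_eq_add_neg]
  exact IsMF_add hf (IsMF_neg hg)

lemma IsMF_sum {ι : Type*} (s : Finset ι) {f : ι → ℍ → ℂ} (hf : ∀ i ∈ s, IsMF Γ k (f i)) :
    IsMF Γ k (∑ i ∈ s, f i) := by
  classical
  induction s using Finset.induction_on with
  | empty => simpa using isMF_zero Γ k
  | insert i t hi IH =>
    rw [Finset.sum_insert hi]
    exact IsMF_add (hf i (Finset.mem_insert_self i t))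
      (IH fun j hj => hf j (Finset.mem_insert_of_mem hj))

/-- Product of a level-one form with a form of level `Γ`. -/
lemma IsMF_mul_levelOne {n : ℤ} {a : ℍ → ℂ} (ha : IsMF ⊤ n a) (hf : IsMF Γ k f) :
    IsMF Γ (n + k) (a * f) := by
  refine ⟨ha.1.mul hf.1, fun γ hγ => ?_, fun γ => ?_⟩
  · rw [ModularForm.mul_slash_SL2, ha.2.1 γ (Subgroup.mem_top γ), hf.2.1 γ hγ]
  · rw [ModularForm.mul_slash_SL2]
    exact isBounded_mul (ha.2.2 γ) (hf.2.2 γ)

lemma isMF_levelOne {k : ℤ} (F : ModularForm 𝒮ℒ k) : IsMF ⊤ k ⇑F := by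
  refine ⟨ModularFormClass.holo F, fun γ _ => div_slash_levelOne F γ, fun g => ?_⟩
  rw [div_slash_levelOne]
  exact div_bdd_of_tendsto (div_tendsto_levelOne F)

lemma isMF_one : IsMF ⊤ 0 (1 : ℍ → ℂ) := by
  refine ⟨mdifferentiable_const, fun γ _ => ModularForm.is_invariant_one γ, fun g => ?_⟩
  rw [ModularForm.is_invariant_one]
  exact (boundedAtImInftySubalgebra ℂ).one_mem

lemma isMF_top_invariant {n : ℤ} {a : ℍ → ℂ} (ha : IsMF ⊤ n a) (g : SL(2, ℤ)) :
    a ∣[n] g = a := ha.2.1 g (Subgroup.mem_top g)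

lemma isMF_top_bdd {n : ℤ} {a : ℍ → ℂ} (ha : IsMF ⊤ n a) : IsBoundedAtImInfty a := by
  have := ha.2.2 1
  rwa [SlashAction.slash_one] at this

/-- The level-one monomial `E₄ ^ x * E₆ ^ y`. -/
noncomputable def monoE (x y : ℕ) : ℍ → ℂ := (⇑E₄) ^ x * (⇑E₆) ^ y

lemma monoE_isMF (x y : ℕ) : IsMF ⊤ (4 * x + 6 * y) (monoE x y) := by
  have h4 : IsMF ⊤ (4 * (x : ℤ)) ((⇑E₄) ^ x) := by
    induction x with
    | zero => simpa using isMF_one
    | succ n ih =>
      rw [pow_succ']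
      have := IsMF_mul_levelOne (isMF_levelOne E₄) ih
      exact isMF_congr_weight (by push_cast; ring) this
  have h6 : IsMF ⊤ (6 * (y : ℤ)) ((⇑E₆) ^ y) := by
    induction y with
    | zero => simpa using isMF_one
    | succ n ih =>
      rw [pow_succ']
      have := IsMF_mul_levelOne (isMF_levelOne E₆) ih
      exact isMF_congr_weight (by push_cast; ring) this
  exact IsMF_mul_levelOne h4 h6

lemma monoE_tendsto (x y : ℕ) : Tendsto (monoE x y) atImInfty (𝓝 1) := by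
  have := (div_tendsto_E₄.pow x).mul (div_tendsto_E₆.pow y)
  simp only [one_pow, mul_one] at this
  exact this

/-- For every even `n ≥ 4` there is a level-one form of weight `n` with value `1` at `i∞`. -/
lemma exists_levelOne_tendsto_one {n : ℤ} (hn : Even n) (h4 : 4 ≤ n) :
    ∃ a : ℍ → ℂ, IsMF ⊤ n a ∧ Tendsto a atImInfty (𝓝 1) := by
  obtain ⟨m, hm⟩ := hn
  rcases Int.even_or_odd m with ⟨r, hr⟩ | ⟨r, hr⟩
  · -- n = 4 r
    have hr0 : 0 ≤ r := by omega
    refine ⟨monoE r.toNat 0, isMF_congr_weight ?_ (monoE_isMF r.toNat 0), monoE_tendsto _ _⟩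
    rw [Int.toNat_of_nonneg hr0]; push_cast; omega
  · -- n = 4 r + 2 = 4 (r - 1) + 6
    have hr0 : 0 ≤ r - 1 := by omega
    refine ⟨monoE (r - 1).toNat 1, isMF_congr_weight ?_ (monoE_isMF (r - 1).toNat 1),
      monoE_tendsto _ _⟩
    rw [Int.toNat_of_nonneg hr0]; push_cast; omega

/-- A nonzero form on a group containing `-1` has even weight. -/
lemma even_weight_of_ne_zero (hΓ : (-1 : SL(2, ℤ)) ∈ Γ) (hf : IsMF Γ k f) (hne : f ≠ 0) :
    Even k := by
  by_contra hodd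
  rw [Int.not_even_iff_odd] at hodd
  apply hne
  funext τ
  have h1 := congrFun (hf.2.1 _ hΓ) τ
  rw [ModularForm.SL_slash_apply] at h1
  have hsmul : (-1 : SL(2, ℤ)) • τ = τ := by
    have := ModularGroup.SL_neg_smul (1 : SL(2, ℤ)) τ
    rwa [one_smul] at this
  have hden : denom (-1 : SL(2, ℤ)) τ = -1 := by
    simp [denom]
  rw [hsmul, hden, zpow_neg, Odd.neg_one_zpow hodd] at h1
  have : f τ * (-1)⁻¹ = - f τ := by norm_num
  rw [this] at h1
  have h2 : (2 : ℂ) * f τ = 0 := by linear_combination -h1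
  simpa using h2

lemma neg_one_mem_Gamma0 (N : ℕ) : (-1 : SL(2, ℤ)) ∈ Gamma0 N := by
  simp [Gamma0_mem]

end Fermat.Agent.S20.H765
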