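import Mathlib

/-!
# S20 / C4 hedge (helper765): orbits of a cyclic group on a finite set

For a group element `s` acting on a finite type `X` we choose a base point in every
`⟨s⟩`-orbit, and index the points of the orbit by `idx x < per x`, `x = s ^ idx x • base x`.
-/

set_option autoImplicit false

open Function

namespace Fermat.Agent.S20.H765

section Orbit

variable {G : Type*} [Group G] (s : G) {X : Type*} [MulAction G X]

/-- The chosen base point of the `⟨s⟩`-orbit of `x`. -/
noncomputable def base (x : X) : X :=
  (Quotient.mk (MulAction.orbitRel (Subgroup.zpowers s) X) x).out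

/-- The length of the `⟨s⟩`-orbit of `x` (minimal period of its base point). -/
noncomputable def per (x : X) : ℕ := minimalPeriod (s • ·) (base s x)

lemma base_eq_of_rel {x y : X} (h : MulAction.orbitRel (Subgroup.zpowers s) X x y) :
    base s x = base s y := by
  unfold base
  rw [Quotient.sound h]

lemma base_pow_smul (n : ℕ) (x : X) : base s (s ^ n • x) = base s x := by
  apply base_eq_of_rel
  rw [MulAction.orbitRel_apply]
  exact ⟨⟨s ^ n, Subgroup.pow_mem _ (Subgroup.mem_zpowers s) n⟩, rfl⟩

lemma base_smul (x : X) : base s (s • x) = base s x := by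
  simpa using base_pow_smul s 1 x

lemma base_base (x : X) : base s (base s x) = base s x := by
  apply base_eq_of_rel
  exact Quotient.mk_out (s := MulAction.orbitRel (Subgroup.zpowers s) X) x

lemma per_smul (x : X) : per s (s • x) = per s x := by
  unfold per; rw [base_smul]

lemma per_base (x : X) : per s (base s x) = per s x := by
  unfold per; rw [base_base]

lemma exists_zpow_smul_base (x : X) : ∃ n : ℤ, s ^ n • base s x = x := by
  have h : MulAction.orbitRel (Subgroup.zpowers s) X (base s x) x :=
    Quotient.mk_out (s := MulAction.orbitRel (Subgroup.zpowers s) X) x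
  rw [MulAction.orbitRel_apply] at h
  obtain ⟨⟨g, hg⟩, hgx⟩ := h
  obtain ⟨n, rfl⟩ := Subgroup.mem_zpowers_iff.mp hg
  refine ⟨-n, ?_⟩
  have hgx' : s ^ n • x = base s x := hgx
  rw [← hgx', ← mul_smul, ← zpow_add]
  simp

variable [Finite X]

lemma per_pos (x : X) : 0 < per s x :=
  minimalPeriod_pos_of_mem_periodicPts ((MulAction.injective s).mem_periodicPts _)

lemma exists_pow_smul_base (x : X) : ∃ t : ℕ, s ^ t • base s x = x := by
  obtain ⟨n, hn⟩ := exists_zpow_smul_base s x
  have hp : (0 : ℤ) < (per s x : ℤ) := by exact_mod_cast per_pos s x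
  refine ⟨(n % (per s x : ℤ)).toNat, ?_⟩
  have h1 : ((n % (per s x : ℤ)).toNat : ℤ) = n % (per s x : ℤ) :=
    Int.toNat_of_nonneg (Int.emod_nonneg _ hp.ne')
  rw [← zpow_natCast, h1]
  unfold per
  rw [MulAction.zpow_smul_mod_minimalPeriod, hn]

open Classical in
/-- The index of `x` in its orbit: `x = s ^ idx x • base x`. -/
noncomputable def idx (x : X) : ℕ := Nat.find (exists_pow_smul_base s x)

lemma pow_idx_smul_base (x : X) : s ^ idx s x • base s x = x := by
  classical
  exact Nat.find_spec (exists_pow_smul_base s x)

lemma idx_le {x : X} {t : ℕ} (h : s ^ t • base s x = x) : idx s x ≤ t := by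
  classical
  exact Nat.find_min' (exists_pow_smul_base s x) h

lemma idx_lt_per (x : X) : idx s x < per s x := by
  have hp := per_pos s x
  have h : s ^ (idx s x % per s x) • base s x = x := by
    unfold per
    rw [MulAction.pow_smul_mod_minimalPeriod, pow_idx_smul_base]
  exact lt_of_le_of_lt (idx_le s h) (Nat.mod_lt _ hp)

omit [Finite X] in
/-- Two powers of `s` agree on the base point iff the exponents are congruent mod the period. -/
lemma pow_smul_base_eq_iff (x : X) (m n : ℕ) :
    s ^ m • base s x = s ^ n • base s x ↔ m ≡ n [MOD per s x] := by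
  unfold per
  wlog hmn : m ≤ n generalizing m n
  · rw [eq_comm, this n m (le_of_not_ge hmn)]
    exact ⟨Nat.ModEq.symm, Nat.ModEq.symm⟩
  obtain ⟨d, rfl⟩ := Nat.exists_eq_add_of_le hmn
  rw [pow_add, mul_smul, eq_comm, smul_left_cancel_iff, MulAction.pow_smul_eq_iff_minimalPeriod_dvd]
  constructor
  · intro h
    have : m + d ≡ m + 0 [MOD minimalPeriod (s • ·) (base s x)] :=
      Nat.ModEq.add_left m ((Nat.modEq_zero_iff_dvd).mpr h)
    simpa using this.symm
  · intro h
    have h' : m + 0 ≡ m + d [MOD minimalPeriod (s • ·) (base s x)] := by simpa using h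
    exact (Nat.modEq_zero_iff_dvd).mp (Nat.ModEq.add_left_cancel' m h').symm

lemma idx_pow_smul_base (x : X) {m : ℕ} (hm : m < per s x) :
    idx s (s ^ m • base s x) = m := by
  have hb : base s (s ^ m • base s x) = base s x := by rw [base_pow_smul, base_base]
  have hper : per s (s ^ m • base s x) = per s x := by unfold per; rw [hb]
  have h1 := pow_idx_smul_base s (s ^ m • base s x)
  rw [hb] at h1
  have h2 := (pow_smul_base_eq_iff s x _ _).mp h1
  have h3 : idx s (s ^ m • base s x) < per s x := hper ▸ idx_lt_per s (s ^ m • base s x)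
  exact Nat.ModEq.eq_of_lt_of_lt h2 h3 hm

/-- `idx (s • x) ≡ idx x + 1` modulo the period. -/
lemma idx_smul_modEq (x : X) : idx s (s • x) ≡ idx s x + 1 [MOD per s x] := by
  have h1 := pow_idx_smul_base s (s • x)
  rw [base_smul] at h1
  have h2 : s ^ (idx s x + 1) • base s x = s • x := by
    rw [pow_succ', mul_smul, pow_idx_smul_base]
  exact (pow_smul_base_eq_iff s x _ _).mp (h1.trans h2.symm)

/-- A point is determined by its base point and index. -/
lemma eq_of_base_eq_of_idx_eq {x y : X} (hb : base s x = base s y) (hi : idx s x = idx s y) :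
    x = y := by
  rw [← pow_idx_smul_base s x, ← pow_idx_smul_base s y, hb, hi]

omit [Finite X] in
lemma per_eq_of_base_eq {x y : X} (hb : base s x = base s y) : per s x = per s y := by
  unfold per; rw [hb]

section Sums

variable [Fintype X] [DecidableEq X]

/-- Sum over an orbit, reindexed by the exponent. -/
lemma sum_orbit_eq_sum_range {M : Type*} [AddCommMonoid M] (x : X) (F : X → M) :
    ∑ y ∈ Finset.univ.filter (fun y => base s y = base s x), F y
      = ∑ m ∈ Finset.range (per s x), F (s ^ m • base s x) := by
  refine Finset.sum_bij' (fun y _ => idx s y) (fun m _ => s ^ m • base s x) ?_ ?_ ?_ ?_ ?_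
  · intro y hy
    rw [Finset.mem_filter] at hy
    rw [Finset.mem_range, ← per_eq_of_base_eq s hy.2]
    exact idx_lt_per s y
  · intro m _
    rw [Finset.mem_filter]
    exact ⟨Finset.mem_univ _, by rw [base_pow_smul, base_base]⟩
  · intro y hy
    rw [Finset.mem_filter] at hy
    rw [← hy.2, pow_idx_smul_base]
  · intro m hm
    rw [Finset.mem_range] at hm
    exact idx_pow_smul_base s x hm
  · intro y hy
    rw [Finset.mem_filter] at hy
    rw [← hy.2, pow_idx_smul_base]

lemma card_orbit_eq_per (x : X) :
    (Finset.univ.filter (fun y => base s y = base s x)).card = per s x := by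
  have := sum_orbit_eq_sum_range s x (fun _ => (1 : ℕ))
  simpa using this

lemma two_mul_sum_orbit (x : X) :
    2 * ∑ y ∈ Finset.univ.filter (fun y => base s y = base s x), ((idx s y : ℝ) / per s y)
      = (per s x : ℝ) - 1 := by
  have h1 : ∑ y ∈ Finset.univ.filter (fun y => base s y = base s x), ((idx s y : ℝ) / per s y)
      = ∑ y ∈ Finset.univ.filter (fun y => base s y = base s x), ((idx s y : ℝ) / per s x) := by
    refine Finset.sum_congr rfl fun y hy => ?_
    rw [Finset.mem_filter] at hy
    rw [per_eq_of_base_eq s hy.2]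
  rw [h1, sum_orbit_eq_sum_range s x (fun y => (idx s y : ℝ) / per s x)]
  have h2 : ∑ m ∈ Finset.range (per s x), ((idx s (s ^ m • base s x) : ℝ) / per s x)
      = ∑ m ∈ Finset.range (per s x), ((m : ℝ) / per s x) := by
    refine Finset.sum_congr rfl fun m hm => ?_
    rw [Finset.mem_range] at hm
    rw [idx_pow_smul_base s x hm]
  rw [h2, ← Finset.sum_div]
  have h3 : (∑ m ∈ Finset.range (per s x), (m : ℝ)) * 2 = (per s x : ℝ) * ((per s x : ℝ) - 1) := by
    have := Finset.sum_range_id_mul_two (per s x)
    have hp := per_pos s x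
    have : ((∑ m ∈ Finset.range (per s x), m : ℕ) : ℝ) * 2 = ((per s x * (per s x - 1) : ℕ) : ℝ) := by
      exact_mod_cast this
    rw [Nat.cast_sum] at this
    rw [this, Nat.cast_mul, Nat.cast_pred hp]
  have hp : (per s x : ℝ) ≠ 0 := by exact_mod_cast (per_pos s x).ne'
  field_simp
  linarith

/-- **Counting**: `2 ∑ idx/per = |X| - #orbits`. -/
theorem two_mul_sum_idx_div_per :
    2 * ∑ x : X, ((idx s x : ℝ) / per s x)
      = (Fintype.card X : ℝ) -
        Nat.card (MulAction.orbitRel.Quotient (Subgroup.zpowers s) X) := by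
  classical
  letI : Fintype (MulAction.orbitRel.Quotient (Subgroup.zpowers s) X) :=
    Fintype.ofFinite _
  set mk : X → MulAction.orbitRel.Quotient (Subgroup.zpowers s) X :=
    fun x => Quotient.mk (MulAction.orbitRel (Subgroup.zpowers s) X) x with hmk
  have hfib : ∀ O : MulAction.orbitRel.Quotient (Subgroup.zpowers s) X,
      Finset.univ.filter (fun x => mk x = O)
        = Finset.univ.filter (fun y => base s y = base s O.out) := by
    intro O
    ext y
    simp only [Finset.mem_filter, Finset.mem_univ, true_and]
    have hO : base s O.out = O.out := by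
      unfold base
      rw [Quotient.out_eq]
    rw [hO]
    unfold base
    constructor
    · intro h; rw [← h]
    · intro h
      have := congrArg (Quotient.mk (MulAction.orbitRel (Subgroup.zpowers s) X)) h
      rwa [Quotient.out_eq, Quotient.out_eq] at this
  have h1 : ∑ x : X, ((idx s x : ℝ) / per s x)
      = ∑ O : MulAction.orbitRel.Quotient (Subgroup.zpowers s) X,
          ∑ x ∈ Finset.univ.filter (fun x => mk x = O), ((idx s x : ℝ) / per s x) :=
    (Finset.sum_fiberwise Finset.univ mk _).symm
  have h2 : (Fintype.card X : ℝ)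
      = ∑ O : MulAction.orbitRel.Quotient (Subgroup.zpowers s) X, (per s O.out : ℝ) := by
    have : Fintype.card X = ∑ O : MulAction.orbitRel.Quotient (Subgroup.zpowers s) X,
        (Finset.univ.filter (fun x => mk x = O)).card := by
      rw [← Finset.card_univ]
      exact Finset.card_eq_sum_card_fiberwise (fun x _ => Finset.mem_univ (mk x))
    rw [this, Nat.cast_sum]
    refine Finset.sum_congr rfl fun O _ => ?_
    rw [hfib O, card_orbit_eq_per]
  rw [h1, Finset.mul_sum, h2, Nat.card_eq_fintype_card, ← Finset.card_univ, Finset.card_eq_sum_ones,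
    Nat.cast_sum, ← Finset.sum_sub_distrib]
  refine Finset.sum_congr rfl fun O _ => ?_
  rw [hfib O, two_mul_sum_orbit]
  simp

end Sums

end Orbit

end Fermat.Agent.S20.H765
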